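import Mathlib.Analysis.Analytic.IsolatedZeros
import Mathlib.Analysis.Calculus.Deriv.Polynomial
import Mathlib.Analysis.Calculus.IteratedDeriv.Lemmas
import Mathlib.Analysis.Calculus.FDeriv.Analytic
import Mathlib.Analysis.Calculus.LocalExtr.Rolle
import Mathlib.Analysis.Analytic.Polynomial
import Mathlib.LinearAlgebra.Lagrange
import Mathlib.LinearAlgebra.Matrix.AbsoluteValue
import Mathlib.LinearAlgebra.Matrix.Block
import Mathlib.Tactic

/-!
# The determinant of smooth functions at nearby points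

`|det (φ j (x i))| ≤ D! M ^ D δ ^ (D (D - 1) / 2)` for `D` points in an interval of length `δ`,
through divided differences and the theorem of Rolle.
-/

set_option autoImplicit false

noncomputable section

open Finset Set Polynomial

namespace FA.BombieriPila

variable {a b : ℝ}

theorem analyticOnNhd_iteratedDeriv {g : ℝ → ℝ} (hg : AnalyticOnNhd ℝ g (Icc a b)) (k : ℕ) :
    AnalyticOnNhd ℝ (iteratedDeriv k g) (Icc a b) := by
  induction k with
  | zero => rwa [iteratedDeriv_zero]
  | succ k ih =>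
    rw [iteratedDeriv_succ]
    exact fun x hx => (ih x hx).deriv

/-- Iterated Rolle. -/
theorem exists_iteratedDeriv_eq_zero : ∀ (m : ℕ) (g : ℝ → ℝ), AnalyticOnNhd ℝ g (Icc a b) →
    ∀ Z : Finset ℝ, #Z = m + 1 → (∀ z ∈ Z, z ∈ Icc a b ∧ g z = 0) →
      ∃ ξ ∈ Icc a b, iteratedDeriv m g ξ = 0 := by
  intro m
  induction m with
  | zero =>
    intro g _ Z hZ hz
    obtain ⟨z, rfl⟩ := Finset.card_eq_one.1 hZ
    exact ⟨z, (hz z (mem_singleton_self z)).1, by simpa using (hz z (mem_singleton_self z)).2⟩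
  | succ m ih =>
    intro g hg Z hZ hz
    let e := Z.orderEmbOfFin hZ
    have he : ∀ i, e i ∈ Icc a b ∧ g (e i) = 0 := fun i => hz _ (Z.orderEmbOfFin_mem hZ i)
    have hy : ∀ i : Fin (m + 1), ∃ y ∈ Set.Ioo (e i.castSucc) (e i.succ), deriv g y = 0 := fun i =>
      exists_deriv_eq_zero (e.strictMono Fin.castSucc_lt_succ)
        (hg.continuousOn.mono (Icc_subset_Icc (he _).1.1 (he _).1.2))
        ((he _).2.trans (he _).2.symm)
    choose y hy hy0 using hy
    have hmono : StrictMono y := fun i j hij =>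
      (hy i).2.trans_le ((e.monotone (Fin.succ_le_castSucc_iff.2 hij)).trans (hy j).1.le)
    obtain ⟨ξ, hξ, h⟩ := ih (deriv g) (fun x hx => (hg x hx).deriv) (Finset.univ.image y)
      (by rw [card_image_of_injective _ hmono.injective, card_univ, Fintype.card_fin])
      (fun z hz => by
        obtain ⟨i, -, rfl⟩ := Finset.mem_image.1 hz
        exact ⟨⟨(he _).1.1.trans (hy i).1.le, (hy i).2.le.trans (he _).1.2⟩, hy0 i⟩)
    exact ⟨ξ, hξ, by rw [iteratedDeriv_succ']; exact h⟩

theorem iteratedDeriv_eval (P : ℝ[X]) (k : ℕ) :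
    iteratedDeriv k (fun x => P.eval x) = fun x => (derivative^[k] P).eval x := by
  induction k with
  | zero => simp
  | succ k ih =>
    rw [iteratedDeriv_succ, ih, Function.iterate_succ_apply']
    funext x
    exact Polynomial.deriv (derivative^[k] P)

/-- Divided differences are bounded by derivatives. -/
theorem dividedDifference_le {g : ℝ → ℝ} (hg : AnalyticOnNhd ℝ g (Icc a b)) {m : ℕ} {M : ℝ}
    (hM : ∀ x ∈ Icc a b, |iteratedDeriv m g x| ≤ M) {ι : Type*} [DecidableEq ι] (s : Finset ι)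
    (v : ι → ℝ) (hv : Set.InjOn v s) (hs : #s = m + 1) (hmem : ∀ i ∈ s, v i ∈ Icc a b) :
    |∑ i ∈ s, g (v i) / ∏ j ∈ s.erase i, (v i - v j)| ≤ M := by
  classical
  set P := Lagrange.interpolate s v fun i => g (v i) with hP
  have hdeg : P.degree < #s := Lagrange.degree_interpolate_lt _ hv
  have hPv : ∀ i ∈ s, P.eval (v i) = g (v i) := fun i hi =>
    Lagrange.eval_interpolate_at_node _ hv hi
  have hnat : P.natDegree ≤ m := by
    rcases eq_or_ne P 0 with h0 | h0
    · simp [h0]
    · rw [← natDegree_lt_iff_degree_lt h0, hs] at hdeg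
      omega
  have hc : P.coeff m = ∑ i ∈ s, g (v i) / ∏ j ∈ s.erase i, (v i - v j) := by
    have h := Lagrange.coeff_eq_sum hv hdeg
    rw [hs, Nat.add_sub_cancel] at h
    rw [h]
    exact Finset.sum_congr rfl fun i hi => by rw [hPv i hi]
  rw [← hc]
  have hpoly : AnalyticOnNhd ℝ (fun x => P.eval x) (Icc a b) :=
    (AnalyticOnNhd.eval_polynomial P).mono (Set.subset_univ _)
  obtain ⟨ξ, hξ, h⟩ := exists_iteratedDeriv_eq_zero m (fun x => g x - P.eval x) (hg.sub hpoly)
    (s.image v) (by rw [card_image_of_injOn hv, hs]) fun z hz => by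
      obtain ⟨i, hi, rfl⟩ := Finset.mem_image.1 hz
      exact ⟨hmem i hi, by simp [hPv i hi]⟩
  rw [show (fun x => g x - P.eval x) = g - fun x => P.eval x from rfl,
    iteratedDeriv_sub (hg ξ hξ).contDiffAt (hpoly ξ hξ).contDiffAt, iteratedDeriv_eval,
    sub_eq_zero] at h
  have hconst : derivative^[m] P = Polynomial.C ((m.factorial : ℝ) * P.coeff m) := by
    ext k
    rw [coeff_iterate_derivative, coeff_C, nsmul_eq_mul]
    rcases Nat.eq_zero_or_pos k with rfl | hk
    · simp [Nat.descFactorial_self]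
    · rw [if_neg hk.ne', coeff_eq_zero_of_natDegree_lt (p := P) (by omega), mul_zero]
  simp only [hconst, eval_C] at h
  have h1 := hM ξ hξ
  rw [h, abs_mul, Nat.abs_cast] at h1
  exact le_trans (le_mul_of_one_le_left (abs_nonneg _)
    (by exact_mod_cast Nat.one_le_iff_ne_zero.2 m.factorial_ne_zero)) h1

/-- **The determinant bound.** -/
theorem abs_det_le {D : ℕ} (φ : Fin D → ℝ → ℝ) (hφ : ∀ j, AnalyticOnNhd ℝ (φ j) (Icc a b))
    {M : ℝ} (hM : ∀ j, ∀ k < D, ∀ x ∈ Icc a b, |iteratedDeriv k (φ j) x| ≤ M)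
    (x : Fin D → ℝ) (hx : Function.Injective x) (hmem : ∀ i, x i ∈ Icc a b) {δ : ℝ}
    (hδ : ∀ i j, |x i - x j| ≤ δ) :
    |(Matrix.of fun i j => φ j (x i)).det| ≤
      D.factorial * M ^ D * δ ^ (∑ i ∈ Finset.range D, i) := by
  classical
  set W : Matrix (Fin D) (Fin D) ℝ := Matrix.of fun i l =>
    if l ≤ i then (∏ k ∈ (Finset.Iic i).erase l, (x l - x k))⁻¹ else 0 with hW
  set A : Matrix (Fin D) (Fin D) ℝ := Matrix.of fun i j => φ j (x i) with hA
  have hDD : ∀ i j, |(W * A) i j| ≤ M := by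
    intro i j
    have h : (W * A) i j =
        ∑ l ∈ Finset.Iic i, φ j (x l) / ∏ k ∈ (Finset.Iic i).erase l, (x l - x k) := by
      rw [Matrix.mul_apply]
      refine (Finset.sum_subset (Finset.subset_univ _) fun l _ hl => ?_).symm.trans
        (Finset.sum_congr rfl fun l hl => ?_)
      · rw [hW, Matrix.of_apply, if_neg fun h => hl (Finset.mem_Iic.2 h), zero_mul]
      · rw [hW, Matrix.of_apply, if_pos (Finset.mem_Iic.1 hl), hA, Matrix.of_apply, div_eq_inv_mul]
    rw [h]
    exact dividedDifference_le (hφ j) (m := i) (hM j i i.isLt) _ x hx.injOn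
      (Fin.card_Iic i) fun l _ => hmem l
  have hdetW : W.det = (∏ i : Fin D, ∏ k ∈ (Finset.Iic i).erase i, (x i - x k))⁻¹ := by
    rw [Matrix.det_of_isLowerTriangular W fun i l (hil : i < l) => by
      rw [hW, Matrix.of_apply, if_neg (not_le.2 hil)]]
    rw [← Finset.prod_inv_distrib]
    exact Finset.prod_congr rfl fun i _ => by rw [hW, Matrix.of_apply, if_pos le_rfl]
  have hne : (∏ i : Fin D, ∏ k ∈ (Finset.Iic i).erase i, (x i - x k)) ≠ 0 := by
    refine Finset.prod_ne_zero_iff.2 fun i _ => Finset.prod_ne_zero_iff.2 fun k hk => ?_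
    exact sub_ne_zero.2 fun e => (Finset.mem_erase.1 hk).1 (hx e).symm
  have hdet : A.det = (∏ i : Fin D, ∏ k ∈ (Finset.Iic i).erase i, (x i - x k)) * (W * A).det := by
    rw [Matrix.det_mul, hdetW, ← mul_assoc, mul_inv_cancel₀ hne, one_mul]
  have hprod : |∏ i : Fin D, ∏ k ∈ (Finset.Iic i).erase i, (x i - x k)| ≤
      δ ^ (∑ i ∈ Finset.range D, i) := by
    rw [← Fin.sum_univ_eq_sum_range (fun i => i) D, ← Finset.prod_pow_eq_pow_sum, Finset.abs_prod]
    refine Finset.prod_le_prod (fun i _ => abs_nonneg _) fun i _ => ?_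
    rw [Finset.abs_prod]
    refine (Finset.prod_le_prod (fun k _ => abs_nonneg _) fun k _ => hδ i k).trans_eq ?_
    rw [Finset.prod_const, Finset.card_erase_of_mem (Finset.mem_Iic.2 le_rfl), Fin.card_Iic,
      Nat.add_sub_cancel]
  rw [hdet, abs_mul, mul_comm]
  refine mul_le_mul ?_ hprod (abs_nonneg _) ?_
  · have h := Matrix.det_le (A := W * A) (abv := (AbsoluteValue.abs : AbsoluteValue ℝ ℝ)) hDD
    rwa [Fintype.card_fin, nsmul_eq_mul] at h
  · rcases Nat.eq_zero_or_pos D with h0 | h0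
    · subst h0; simp
    · exact mul_nonneg (Nat.cast_nonneg _)
        (pow_nonneg ((abs_nonneg _).trans (hDD ⟨0, h0⟩ ⟨0, h0⟩)) _)

end FA.BombieriPila

end
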