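import Fermat.Agent.BombieriPila.Zeros
import Mathlib.Analysis.SpecialFunctions.Pow.Real
import Mathlib.LinearAlgebra.Dual.Lemmas
import Mathlib.LinearAlgebra.Matrix.NonsingularInverse
import Mathlib.Algebra.Order.Floor.Semiring
import Mathlib.Analysis.SpecialFunctions.PolynomialExp
import Mathlib.Analysis.SpecialFunctions.ExpDeriv
import Mathlib.Analysis.Polynomial.Basic

/-!
# Rational points on transcendental curves

The rational points of height at most `H` on the graph of a transcendental analytic function on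
a segment number at most `C H ^ ε` (Bombieri and Pila).
-/

set_option autoImplicit false

noncomputable section

open Finset Set

namespace FA.BombieriPila

variable {a b : ℝ}

/-- The monomials `x ^ p * y ^ q`, `p, q < d`, along the graph. -/
def monomials (f : ℝ → ℝ) (d : ℕ) (i : Fin (d * d)) (x : ℝ) : ℝ :=
  x ^ (finProdFinEquiv.symm i).1.val * f x ^ (finProdFinEquiv.symm i).2.val

/-- No nonzero polynomial vanishes on the graph. -/
def Transcendent (f : ℝ → ℝ) (a b : ℝ) : Prop :=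
  ∀ (d : ℕ) (v : Fin (d * d) → ℝ), v ≠ 0 → ∃ x ∈ Icc a b, ∑ j, v j * monomials f d j x ≠ 0

theorem analyticOnNhd_monomials {f : ℝ → ℝ} (hf : AnalyticOnNhd ℝ f (Icc a b)) (d : ℕ)
    (i : Fin (d * d)) : AnalyticOnNhd ℝ (monomials f d i) (Icc a b) := fun x hx =>
  (analyticAt_id.pow _).mul ((hf x hx).pow _)

/-- Clearing the denominators in a monomial. -/
theorem exists_int_monomial (q : ℚ) {p n : ℕ} (hp : p ≤ n) :
    ∃ z : ℤ, (q : ℝ) ^ p * (q.den : ℝ) ^ n = z := by
  refine ⟨q.num ^ p * (q.den : ℤ) ^ (n - p), ?_⟩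
  push_cast
  rw [← Nat.add_sub_cancel' hp, pow_add, ← mul_assoc, ← mul_pow, Nat.add_sub_cancel_left]
  have : (q : ℝ) * (q.den : ℝ) = (q.num : ℝ) := by exact_mod_cast Rat.mul_den_eq_num q
  rw [this]

/-- Rational points with nearby abscissae lie on one curve of small degree. -/
theorem exists_curve {f : ℝ → ℝ} (hf : AnalyticOnNhd ℝ f (Icc a b)) {d : ℕ} {M : ℝ}
    (hM : ∀ j, ∀ k < d * d, ∀ x ∈ Icc a b, |iteratedDeriv k (monomials f d j) x| ≤ M)
    {H : ℕ} {δ : ℝ}
    (hsmall : ((d * d).factorial : ℝ) * M ^ (d * d) * δ ^ (∑ i ∈ Finset.range (d * d), i) *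
      ((H : ℝ) ^ (2 * (d - 1))) ^ (d * d) < 1)
    (S : Finset ℚ) (y : ℚ → ℚ)
    (hS : ∀ x ∈ S, (x : ℝ) ∈ Icc a b ∧ f x = y x ∧ x.den ≤ H ∧ (y x).den ≤ H)
    (hclose : ∀ x ∈ S, ∀ x' ∈ S, |(x : ℝ) - x'| ≤ δ) :
    ∃ v : Fin (d * d) → ℝ, v ≠ 0 ∧ ∀ x ∈ S, ∑ j, v j * monomials f d j x = 0 := by
  classical
  by_contra! hno
  set r : S → Fin (d * d) → ℝ := fun s j => monomials f d j ((s : ℚ) : ℝ) with hr
  have hspan : Submodule.span ℝ (Set.range r) = ⊤ := by
    by_contra hne
    obtain ⟨ψ, hψ0, hψ⟩ := Submodule.exists_dual_map_eq_bot_of_lt_top (lt_top_iff_ne_top.2 hne)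
      inferInstance
    have hexp : ∀ u : Fin (d * d) → ℝ, ψ u = ∑ j, ψ (Pi.single j 1) * u j := fun u => by
      conv_lhs => rw [pi_eq_sum_univ' u]
      simp [map_sum, map_smul, mul_comm]
    obtain ⟨x, hx, hxne⟩ := hno (fun j => ψ (Pi.single j 1)) fun h => hψ0 (LinearMap.ext fun u => by
      rw [hexp u]
      exact Finset.sum_eq_zero fun j _ => by rw [congrFun h j, Pi.zero_apply, zero_mul])
    refine hxne ?_
    have h : ψ (r ⟨x, hx⟩) = 0 := by
      rw [← Submodule.mem_bot ℝ, ← hψ]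
      exact Submodule.mem_map_of_mem (Submodule.subset_span (Set.mem_range_self _))
    rwa [hexp] at h
  obtain ⟨t, htr, htspan, htind⟩ := exists_linearIndependent ℝ (Set.range r)
  rw [hspan] at htspan
  let Bt := Module.Basis.mk htind (by rw [Subtype.range_coe_subtype, Set.ofPred_mem_eq, htspan])
  have : Fintype t := FiniteDimensional.fintypeBasisIndex Bt
  have hcard : Fintype.card t = d * d := by
    rw [← Module.finrank_eq_card_basis Bt, Module.finrank_fintype_fun_eq_card, Fintype.card_fin]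
  let e : Fin (d * d) ≃ t := (Fintype.equivFinOfCardEq hcard).symm
  have hpre : ∀ i, ∃ s : S, r s = (e i : Fin (d * d) → ℝ) := fun i => htr (e i).2
  choose s hs using hpre
  set A : Matrix (Fin (d * d)) (Fin (d * d)) ℝ := Matrix.of fun i j => r (s i) j with hA
  have hdet : A.det ≠ 0 := by
    have hli : LinearIndependent ℝ A.row := by
      have : A.row = Subtype.val ∘ e := funext fun i => hs i
      rw [this]
      exact htind.comp e e.injective
    exact ((Matrix.isUnit_iff_isUnit_det A).1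
      (Matrix.linearIndependent_rows_iff_isUnit.1 hli)).ne_zero
  have hinj : Function.Injective fun i => ((s i : ℚ) : ℝ) := fun i j h => by
    have h' : s i = s j := Subtype.ext (Rat.cast_injective h)
    exact e.injective (Subtype.ext (by rw [← hs i, ← hs j, h']))
  have hbound := abs_det_le (monomials f d) (analyticOnNhd_monomials hf d) hM
    (fun i => ((s i : ℚ) : ℝ)) hinj (fun i => (hS _ (s i).2).1)
    fun i j => hclose _ (s i).2 _ (s j).2
  set c : Fin (d * d) → ℝ := fun i =>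
    ((s i : ℚ).den : ℝ) ^ (d - 1) * ((y (s i)).den : ℝ) ^ (d - 1) with hc
  obtain ⟨z, hz⟩ : ∃ z : ℤ, (∏ i, c i) * A.det = z := by
    have hent : ∀ i j, ∃ z : ℤ, c i * A i j = z := fun i j => by
      obtain ⟨z₁, h₁⟩ := exists_int_monomial (s i : ℚ) (p := (finProdFinEquiv.symm j).1.val)
        (n := d - 1) (by have := (finProdFinEquiv.symm j).1.isLt; omega)
      obtain ⟨z₂, h₂⟩ := exists_int_monomial (y (s i)) (p := (finProdFinEquiv.symm j).2.val)
        (n := d - 1) (by have := (finProdFinEquiv.symm j).2.isLt; omega)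
      refine ⟨z₁ * z₂, ?_⟩
      rw [Int.cast_mul, ← h₁, ← h₂, hA, Matrix.of_apply, hr]
      simp only [monomials, (hS _ (s i).2).2.1, hc]
      ring
    choose Z hZ using hent
    refine ⟨(Matrix.of fun i j => Z i j).det, ?_⟩
    rw [← Matrix.det_mul_column, Int.cast_det]
    congr 1
    ext i j
    simp only [Matrix.map_apply, Matrix.of_apply]
    exact hZ i j
  have hcpos : ∀ i, 0 < c i := fun i => by
    have h1 : (0 : ℝ) < ((s i : ℚ).den : ℝ) := Nat.cast_pos.2 (Rat.den_pos _)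
    have h2 : (0 : ℝ) < ((y (s i)).den : ℝ) := Nat.cast_pos.2 (Rat.den_pos _)
    positivity
  have hz0 : z ≠ 0 := fun h => by
    rw [h, Int.cast_zero, mul_eq_zero] at hz
    exact hz.elim (Finset.prod_ne_zero_iff.2 fun i _ => (hcpos i).ne') hdet
  have h1 : (1 : ℝ) ≤ |(z : ℝ)| := by exact_mod_cast Int.one_le_abs hz0
  rw [← hz, abs_mul] at h1
  have hcH : |∏ i, c i| ≤ ((H : ℝ) ^ (2 * (d - 1))) ^ (d * d) := by
    rw [abs_of_pos (Finset.prod_pos fun i _ => hcpos i)]
    calc ∏ i, c i ≤ ∏ _i : Fin (d * d), (H : ℝ) ^ (2 * (d - 1)) :=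
          Finset.prod_le_prod (fun i _ => (hcpos i).le) fun i _ => by
            rw [two_mul, pow_add]
            exact mul_le_mul (pow_le_pow_left₀ (Nat.cast_nonneg _)
              (Nat.cast_le.2 (hS _ (s i).2).2.2.1) _) (pow_le_pow_left₀ (Nat.cast_nonneg _)
              (Nat.cast_le.2 (hS _ (s i).2).2.2.2) _) (by positivity) (by positivity)
      _ = _ := by rw [Finset.prod_const, Finset.card_univ, Fintype.card_fin]
  have h2 : |∏ i, c i| * |A.det| ≤ ((H : ℝ) ^ (2 * (d - 1))) ^ (d * d) *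
      (((d * d).factorial : ℝ) * M ^ (d * d) * δ ^ (∑ i ∈ Finset.range (d * d), i)) :=
    mul_le_mul hcH hbound (abs_nonneg _) (by positivity)
  linarith

/-- The scale of the intervals. -/
theorem exists_scale {a b : ℝ} {f : ℝ → ℝ} (hf : AnalyticOnNhd ℝ f (Icc a b)) {d : ℕ} (hd : 2 ≤ d) :
    ∃ θ : ℝ, 0 < θ ∧ ∃ M : ℝ, (∀ j, ∀ k < d * d, ∀ x ∈ Icc a b,
      |iteratedDeriv k (monomials f d j) x| ≤ M) ∧ ∀ H : ℕ, 0 < H →
      ((d * d).factorial : ℝ) * M ^ (d * d) *
        (θ / (H : ℝ) ^ (4 / ((d : ℝ) + 1))) ^ (∑ i ∈ Finset.range (d * d), i) *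
        ((H : ℝ) ^ (2 * (d - 1))) ^ (d * d) < 1 := by
  have hbd : ∀ w : Fin (d * d) × Fin (d * d), ∃ M : ℝ, ∀ x ∈ Icc a b,
      |iteratedDeriv w.2 (monomials f d w.1) x| ≤ M := fun w => by
    obtain ⟨M, hM⟩ := isCompact_Icc.exists_bound_of_continuousOn
      (analyticOnNhd_iteratedDeriv (analyticOnNhd_monomials hf d w.1) w.2).continuousOn
    exact ⟨M, hM⟩
  choose M' hM' using hbd
  set M := ∑ w, |M' w| with hM
  have hM0 : 0 ≤ M := Finset.sum_nonneg fun w _ => abs_nonneg _
  have hMb : ∀ j, ∀ k < d * d, ∀ x ∈ Icc a b, |iteratedDeriv k (monomials f d j) x| ≤ M :=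
    fun j k hk x hx => (hM' (j, ⟨k, hk⟩) x hx).trans ((le_abs_self _).trans
      (Finset.single_le_sum (f := fun w => |M' w|) (fun w _ => abs_nonneg _)
        (Finset.mem_univ ((j, ⟨k, hk⟩) : Fin (d * d) × Fin (d * d)))))
  set K := ((d * d).factorial : ℝ) * M ^ (d * d) + 1 with hK
  have hK1 : 1 ≤ K := le_add_of_nonneg_left (by positivity)
  refine ⟨1 / (2 * K), by positivity, M, hMb, fun H hH => ?_⟩
  set n := ∑ i ∈ Finset.range (d * d), i with hn
  have hn2 : n * 2 = d * d * (d * d - 1) := Finset.sum_range_id_mul_two _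
  have h4 : 4 ≤ d * d := Nat.mul_le_mul hd hd
  have hn1 : 1 ≤ n := by
    have : 1 ≤ d * d * (d * d - 1) := 
        Nat.one_le_iff_ne_zero.2 (Nat.mul_ne_zero (by omega) (by omega))
    omega
  have hexp : ((H : ℝ) ^ (4 / ((d : ℝ) + 1))) ^ n = ((H : ℝ) ^ (2 * (d - 1))) ^ (d * d) := by
    rw [← pow_mul, ← Real.rpow_natCast _ n, ← Real.rpow_mul (Nat.cast_nonneg H),
      ← Real.rpow_natCast _ (2 * (d - 1) * (d * d))]
    congr 1
    have e : (n : ℝ) * 2 = (d : ℝ) * d * ((d : ℝ) * d - 1) := by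
      have := congrArg (Nat.cast : ℕ → ℝ) hn2
      push_cast [Nat.cast_sub (show 1 ≤ d * d by omega)] at this
      linarith
    push_cast [Nat.cast_sub (show 1 ≤ d by omega)]
    field_simp
    linear_combination 2 * e
  have hpos : (0 : ℝ) < (H : ℝ) ^ (4 / ((d : ℝ) + 1)) := Real.rpow_pos_of_pos (Nat.cast_pos.2 hH) _
  rw [← hexp, div_pow (1 / (2 * K)), mul_assoc, div_mul_cancel₀ _ (pow_pos hpos n).ne']
  calc ((d * d).factorial : ℝ) * M ^ (d * d) * (1 / (2 * K)) ^ n
      ≤ K * (1 / (2 * K)) := by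
        refine mul_le_mul (by linarith) ?_ (by positivity) (by linarith)
        exact pow_le_of_le_one (by positivity) (by rw [div_le_one (by positivity)]; linarith)
          (by omega)
    _ < 1 := by field_simp; norm_num

/-- **The theorem of Bombieri and Pila.** -/
theorem rational_points_le {f : ℝ → ℝ} (hf : AnalyticOnNhd ℝ f (Icc a b))
    (htr : Transcendent f a b) {ε : ℝ} (hε : 0 < ε) :
    ∃ C : ℝ, ∀ H : ℕ, 0 < H → ∀ S : Finset ℚ,
      (∀ x ∈ S, (x : ℝ) ∈ Icc a b ∧ x.den ≤ H ∧ ∃ y : ℚ, f x = y ∧ y.den ≤ H) →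
      (#S : ℝ) ≤ C * (H : ℝ) ^ ε := by
  classical
  set d := ⌈4 / ε⌉₊ + 2 with hd
  obtain ⟨θ, hθ, M, hM, hsmall⟩ := exists_scale hf (d := d) (by omega)
  obtain ⟨B, hB⟩ := exists_zero_bound (monomials f d) (analyticOnNhd_monomials hf d) (htr d)
  refine ⟨B * (|b - a| / θ + 1), fun H hH S hS => ?_⟩
  have hex : ∀ x ∈ S, ∃ y : ℚ, f x = y ∧ y.den ≤ H := fun x hx => (hS x hx).2.2
  choose! y hy hyd using hex
  set h := (H : ℝ) ^ (4 / ((d : ℝ) + 1)) with hh
  have hH1 : (1 : ℝ) ≤ H := Nat.one_le_cast.2 hH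
  have hh1 : 1 ≤ h := Real.one_le_rpow hH1 (by positivity)
  set δ := θ / h with hδ
  have hδ0 : 0 < δ := div_pos hθ (by linarith)
  set n := ⌊|b - a| / δ⌋₊ + 1 with hn
  have hmap : ∀ x ∈ S, ⌊((x : ℝ) - a) / δ⌋₊ ∈ Finset.range n := fun x hx => by
    rw [Finset.mem_range, hn, Nat.lt_succ_iff]
    refine Nat.floor_le_floor ?_
    have hba := le_abs_self (b - a)
    gcongr
    linarith [(hS x hx).1.2]
  have hfib : ∀ i ∈ Finset.range n, #(S.filter fun x : ℚ => ⌊((x : ℝ) - a) / δ⌋₊ = i) ≤ B := by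
    intro i _
    set T := S.filter fun x : ℚ => ⌊((x : ℝ) - a) / δ⌋₊ = i with hT
    obtain ⟨v, hv, hvz⟩ := exists_curve hf hM (hsmall H hH) T y
      (fun x hx => by
        have hxS := (Finset.mem_filter.1 hx).1
        exact ⟨(hS x hxS).1, hy x hxS, (hS x hxS).2.1, hyd x hxS⟩)
      fun x hx x' hx' => by
        obtain ⟨hx1, hx2⟩ := Finset.mem_filter.1 hx
        obtain ⟨hx1', hx2'⟩ := Finset.mem_filter.1 hx'
        have h0 : 0 ≤ ((x : ℝ) - a) / δ := div_nonneg (sub_nonneg.2 (hS x hx1).1.1) hδ0.le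
        have h0' : 0 ≤ ((x' : ℝ) - a) / δ := div_nonneg (sub_nonneg.2 (hS x' hx1').1.1) hδ0.le
        obtain ⟨l1, u1⟩ := (Nat.floor_eq_iff h0).1 hx2
        obtain ⟨l2, u2⟩ := (Nat.floor_eq_iff h0').1 hx2'
        have e : |((x : ℝ) - a) / δ - ((x' : ℝ) - a) / δ| ≤ 1 :=
          abs_sub_le_iff.2 ⟨by linarith, by linarith⟩
        rwa [← sub_div, abs_div, abs_of_pos hδ0, div_le_one hδ0, sub_sub_sub_cancel_right] at e
    rw [← Finset.card_image_of_injective T (Rat.cast_injective (α := ℝ))]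
    exact hB v hv _ fun z hz => by
      obtain ⟨x, hx, rfl⟩ := Finset.mem_image.1 hz
      exact ⟨(hS x (Finset.mem_filter.1 hx).1).1, hvz x hx⟩
  have hcard : #S ≤ B * n := by
    refine (Finset.card_le_mul_card_image_of_maps_to hmap B hfib).trans (le_of_eq ?_)
    rw [Finset.card_range]
  have hnle : (n : ℝ) ≤ (|b - a| / θ + 1) * h := by
    rw [hn, Nat.cast_add, Nat.cast_one, add_mul, one_mul]
    refine add_le_add ((Nat.floor_le (div_nonneg (abs_nonneg _) hδ0.le)).trans_eq ?_) hh1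
    rw [hδ]
    field_simp
  have hhε : h ≤ (H : ℝ) ^ ε := by
    refine Real.rpow_le_rpow_of_exponent_le hH1 ?_
    rw [div_le_iff₀ (by positivity)]
    have h1 := Nat.le_ceil (4 / ε)
    rw [div_le_iff₀ hε] at h1
    rw [hd]
    push_cast
    nlinarith
  calc (#S : ℝ) ≤ (B : ℝ) * n := by exact_mod_cast hcard
    _ ≤ B * ((|b - a| / θ + 1) * (H : ℝ) ^ ε) := mul_le_mul_of_nonneg_left
        (hnle.trans (mul_le_mul_of_nonneg_left hhε (by positivity))) (Nat.cast_nonneg B)
    _ = _ := by ring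

/-- **Integer points on the dilates** of the graph. -/
theorem dilates_le {f : ℝ → ℝ} (hf : AnalyticOnNhd ℝ f (Icc a b)) (htr : Transcendent f a b)
    {ε : ℝ} (hε : 0 < ε) :
    ∃ C : ℝ, ∀ t : ℕ, 0 < t → ∀ S : Finset ℤ,
      (∀ m ∈ S, (m : ℝ) / t ∈ Icc a b ∧ ∃ n : ℤ, f ((m : ℝ) / t) = (n : ℝ) / t) →
      (#S : ℝ) ≤ C * (t : ℝ) ^ ε := by
  classical
  obtain ⟨C, hC⟩ := rational_points_le hf htr hε
  refine ⟨C, fun t ht S hS => ?_⟩
  have hinj : Function.Injective fun m : ℤ => (m : ℚ) / t := fun m m' h => by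
    have ht' : (t : ℚ) ≠ 0 := Nat.cast_ne_zero.2 ht.ne'
    exact_mod_cast (div_left_inj' ht').1 h
  have hden : ∀ m : ℤ, ((m : ℚ) / t).den ≤ t := fun m => by
    have h : (((m : ℚ) / t).den : ℤ) ∣ (t : ℤ) := by
      rw [show (m : ℚ) / t = Rat.divInt m (t : ℤ) by rw [Rat.divInt_eq_div, Int.cast_natCast]]
      exact Rat.den_dvd _ _
    exact Nat.le_of_dvd ht (Int.natCast_dvd_natCast.1 h)
  have h := hC t ht (S.image fun m : ℤ => (m : ℚ) / t) fun x hx => by
    obtain ⟨m, hm, rfl⟩ := Finset.mem_image.1 hx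
    obtain ⟨hmI, n, hn⟩ := hS m hm
    exact ⟨by simpa using hmI, hden m, (n : ℚ) / t, by simpa using hn, hden n⟩
  rwa [Finset.card_image_of_injective _ hinj] at h

/-- The exponential function is transcendental on every segment. -/
theorem transcendent_exp (hab : a < b) : Transcendent Real.exp a b := by
  classical
  intro d v hv
  by_contra! hzero
  let G : ℝ → ℝ := fun x => ∑ j, v j * monomials Real.exp d j x
  have hG : AnalyticOnNhd ℝ G Set.univ := fun x _ => Finset.analyticAt_fun_sum _ fun j _ =>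
    analyticAt_const.mul ((analyticAt_id.pow _).mul (analyticAt_rexp.pow _))
  have hG0 : ∀ x, G x = 0 := fun x =>
    hG.eqOn_zero_of_preconnected_of_eventuallyEq_zero isPreconnected_univ
      (mem_univ ((a + b) / 2)) (Filter.eventually_of_mem
        (Icc_mem_nhds (by linarith : a < (a + b) / 2) (by linarith : (a + b) / 2 < b))
        fun y hy => hzero y hy) (mem_univ x)
  -- the coefficient polynomials of the powers of the exponential
  let A : Fin d → Polynomial ℝ := fun q =>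
    ∑ p : Fin d, Polynomial.C (v (finProdFinEquiv (p, q))) * Polynomial.X ^ (p : ℕ)
  have hsum : ∀ x, ∑ q, (A q).eval x * Real.exp x ^ (q : ℕ) = 0 := fun x => by
    rw [← hG0 x]
    simp only [G, A, monomials, Polynomial.eval_finsetSum, Polynomial.eval_mul, Polynomial.eval_C,
      Polynomial.eval_pow, Polynomial.eval_X, Finset.sum_mul]
    rw [Finset.sum_comm, ← Fintype.sum_prod_type']
    exact Fintype.sum_equiv finProdFinEquiv _ _ fun w => by
      rw [Equiv.symm_apply_apply, mul_assoc]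
  have hA : ∀ q, A q = 0 := by
    by_contra! hne
    obtain ⟨Q, hQ, hmax⟩ := (Finset.univ.filter fun q => A q ≠ 0).exists_max_image
      (fun q => (q : ℕ))
      (let ⟨q, hq⟩ := hne; ⟨q, Finset.mem_filter.2 ⟨Finset.mem_univ _, hq⟩⟩)
    refine (Finset.mem_filter.1 hQ).2 ?_
    have hlim : Filter.Tendsto (fun x => (A Q).eval x) Filter.atTop (nhds 0) := by
      have h1 : Filter.Tendsto
          (fun x => -∑ q ∈ Finset.univ.filter (fun q : Fin d => (q : ℕ) < Q),
            (A q).eval x / Real.exp x * Real.exp (-(((Q : ℕ) - (q : ℕ) - 1 : ℕ) : ℝ) * x))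
          Filter.atTop (nhds 0) := by
        rw [← neg_zero, ← Finset.sum_const_zero 
          (s := Finset.univ.filter (fun q : Fin d => (q : ℕ) < Q))]
        refine (tendsto_finsetSum _ fun q _ => ?_).neg
        refine squeeze_zero_norm' ?_ (tendsto_norm_zero.comp (A q).tendsto_div_exp_atTop)
        filter_upwards [Filter.eventually_ge_atTop 0] with x hx
        simp only [norm_mul, Function.comp_apply, Real.norm_eq_abs, Real.abs_exp]
        refine mul_le_of_le_one_right (abs_nonneg _) (Real.exp_le_one_iff.2 ?_)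
        nlinarith [(Nat.cast_nonneg ((Q : ℕ) - (q : ℕ) - 1) : (0 : ℝ) ≤ _)]
      refine h1.congr fun x => ?_
      have h := hsum x
      rw [← Finset.sum_filter_add_sum_filter_not Finset.univ (fun q : Fin d => (q : ℕ) < Q)] at h
      rw [Finset.sum_eq_single_of_mem (s := Finset.univ.filter fun q : Fin d => ¬(q : ℕ) < Q) Q
        (by simp) fun q hq hqQ => ?_] at h
      · rw [eq_comm, eq_neg_iff_add_eq_zero, add_comm]
        have hQpos : 0 < Real.exp x ^ (Q : ℕ) := pow_pos (Real.exp_pos x) _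
        refine (mul_eq_zero.1 (show _ * Real.exp x ^ (Q : ℕ) = 0 from ?_)).resolve_right hQpos.ne'
        rw [add_mul, Finset.sum_mul]
        refine Eq.trans (congrArg₂ (· + ·) (Finset.sum_congr rfl fun q hq => ?_) rfl) h
        have hqQ : (q : ℕ) < Q := (Finset.mem_filter.1 hq).2
        obtain ⟨k, hk⟩ : ∃ k, (Q : ℕ) = q + 1 + k := ⟨(Q : ℕ) - q - 1, by omega⟩
        rw [hk, show (q : ℕ) + 1 + k - q - 1 = k by omega, pow_add, pow_add, pow_one, neg_mul,
          Real.exp_neg, ← Real.exp_nat_mul x k]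
        field_simp
      · have hlt : ¬(q : ℕ) < Q := (Finset.mem_filter.1 hq).2
        by_cases h0 : A q = 0
        · simp [h0]
        · have := hmax q (Finset.mem_filter.2 ⟨Finset.mem_univ _, h0⟩)
          exact absurd (Fin.ext (by omega)) hqQ
    by_contra h0
    rcases (A Q).natDegree.eq_zero_or_pos with hd | hd
    · rw [Polynomial.eq_C_of_natDegree_eq_zero hd] at hlim h0
      simp only [Polynomial.eval_C] at hlim
      exact h0 (by rw [tendsto_nhds_unique tendsto_const_nhds hlim, Polynomial.C_0])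
    · exact not_tendsto_nhds_of_tendsto_atTop ((A Q).abs_tendsto_atTop
        (Polynomial.natDegree_pos_iff_degree_pos.1 hd)) 0 (by simpa using hlim.abs)
  refine hv (funext fun i => ?_)
  have h := congrArg (fun P => Polynomial.coeff P (finProdFinEquiv.symm i).1.val)
    (hA (finProdFinEquiv.symm i).2)
  simp only [A, Polynomial.finsetSum_coeff, Polynomial.coeff_C_mul_X_pow,
    Polynomial.coeff_zero] at h
  rw [Finset.sum_eq_single (finProdFinEquiv.symm i).1 
      (fun p _ hp => if_neg fun e => hp (Fin.ext e.symm))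
    (fun h' => absurd (Finset.mem_univ _) h'), if_pos rfl, Prod.mk.eta, Equiv.apply_symm_apply] at h
  exact h

end FA.BombieriPila

end
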