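import Fermat.Agent.BombieriPila.DetBound
import Mathlib.Analysis.Analytic.Uniqueness
import Mathlib.Analysis.Analytic.Order
import Mathlib.Topology.Compactness.Compact
import Mathlib.Analysis.Normed.Module.FiniteDimension

/-!
# A uniform bound for the zeros of combinations of analytic functions

If no nontrivial combination of finitely many analytic functions vanishes on the interval, the
combinations have boundedly many zeros there.
-/

set_option autoImplicit false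

noncomputable section

open Finset Set Filter Topology

namespace FA.BombieriPila

variable {a b : ℝ} {κ : Type*} [Fintype κ] (φ : κ → ℝ → ℝ)

theorem iteratedDeriv_combination (hφ : ∀ j, AnalyticOnNhd ℝ (φ j) (Icc a b)) (v : κ → ℝ) (k : ℕ)
    {x : ℝ} (hx : x ∈ Icc a b) :
    iteratedDeriv k (fun y => ∑ j, v j * φ j y) x = ∑ j, v j * iteratedDeriv k (φ j) x := by
  rw [iteratedDeriv_fun_sum (f := fun j y => v j * φ j y)
    fun j _ => (analyticAt_const.fun_mul (hφ j x hx)).contDiffAt]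
  exact Finset.sum_congr rfl fun j _ => iteratedDeriv_const_mul_field _ _

/-- Some derivative of a nonzero combination does not vanish. -/
theorem exists_deriv_ne_zero (hφ : ∀ j, AnalyticOnNhd ℝ (φ j) (Icc a b))
    (hind : ∀ v : κ → ℝ, v ≠ 0 → ∃ x ∈ Icc a b, ∑ j, v j * φ j x ≠ 0) {v : κ → ℝ} (hv : v ≠ 0)
    {x : ℝ} (hx : x ∈ Icc a b) : ∃ k, ∑ j, v j * iteratedDeriv k (φ j) x ≠ 0 := by
  by_contra! h
  have hF : AnalyticOnNhd ℝ (fun y => ∑ j, v j * φ j y) (Icc a b) := fun y hy =>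
    Finset.analyticAt_fun_sum _ fun j _ => analyticAt_const.fun_mul (hφ j y hy)
  have htop : analyticOrderAt (fun y => ∑ j, v j * φ j y) x = ⊤ := by
    refine ENat.eq_top_iff_forall_ge.2 fun n => ?_
    rw [natCast_le_analyticOrderAt_iff_iteratedDeriv_eq_zero (hF x hx)]
    exact fun i _ => by rw [iteratedDeriv_combination φ hφ v i hx]; exact h i
  obtain ⟨y, hy, hne⟩ := hind v hv
  exact hne (hF.eqOn_zero_of_preconnected_of_eventuallyEq_zero isPreconnected_Icc hx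
    (analyticOrderAt_eq_top.1 htop) hy)

/-- **The uniform zero bound.** -/
theorem exists_zero_bound (hφ : ∀ j, AnalyticOnNhd ℝ (φ j) (Icc a b))
    (hind : ∀ v : κ → ℝ, v ≠ 0 → ∃ x ∈ Icc a b, ∑ j, v j * φ j x ≠ 0) :
    ∃ B : ℕ, ∀ v : κ → ℝ, v ≠ 0 → ∀ Z : Finset ℝ,
      (∀ z ∈ Z, z ∈ Icc a b ∧ ∑ j, v j * φ j z = 0) → #Z ≤ B := by
  classical
  set S := Metric.sphere (0 : κ → ℝ) 1 ×ˢ Icc a b with hS
  let p : Set ((κ → ℝ) × ℝ) → Prop := fun O => ∃ B : ℕ, ∀ (v : κ → ℝ) (Z : Finset ℝ),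
    (∀ z ∈ Z, z ∈ Icc a b ∧ ∑ j, v j * φ j z = 0 ∧ (v, z) ∈ O) → #Z ≤ B
  obtain ⟨B, hB⟩ : p S := by
    refine ((isCompact_sphere (0 : κ → ℝ) 1).prod (isCompact_Icc (a := a) (b := b))).induction_on
      (p := p) ?_ ?_ ?_ ?_
    · exact ⟨0, fun v Z hZ => by
        rw [Nat.le_zero, Finset.card_eq_zero, Finset.eq_empty_iff_forall_notMem]
        exact fun z hz => (hZ z hz).2.2⟩
    · rintro s t hst ⟨B, hB⟩
      exact ⟨B, fun v Z hZ => hB v Z fun z hz => ⟨(hZ z hz).1, (hZ z hz).2.1, hst (hZ z hz).2.2⟩⟩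
    · rintro s t ⟨B, hB⟩ ⟨C, hC⟩
      refine ⟨B + C, fun v Z hZ => ?_⟩
      rw [← card_filter_add_card_filter_not (s := Z) fun z => (v, z) ∈ s]
      refine Nat.add_le_add (hB v _ fun z hz => ?_) (hC v _ fun z hz => ?_)
      · obtain ⟨hz1, hz2⟩ := Finset.mem_filter.1 hz
        exact ⟨(hZ z hz1).1, (hZ z hz1).2.1, hz2⟩
      · obtain ⟨hz1, hz2⟩ := Finset.mem_filter.1 hz
        exact ⟨(hZ z hz1).1, (hZ z hz1).2.1, (hZ z hz1).2.2.resolve_left hz2⟩
    rintro ⟨v, x⟩ ⟨hv, hx⟩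
    have hx' : x ∈ Icc a b := hx
    have hv0 : v ≠ 0 := fun h => by simp [h] at hv
    obtain ⟨k, hk⟩ := exists_deriv_ne_zero φ hφ hind hv0 hx'
    have hc : ContinuousWithinAt
        (fun w : (κ → ℝ) × ℝ => ∑ j, w.1 j * iteratedDeriv k (φ j) w.2)
        ((Set.univ : Set (κ → ℝ)) ×ˢ Icc a b) (v, x) :=
      (continuousOn_finsetSum _ fun j _ =>
        ((continuous_apply j).comp continuous_fst).continuousOn.mul
          ((analyticOnNhd_iteratedDeriv (hφ j) k).continuousOn.comp continuousOn_snd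
            fun w hw => hw.2)).continuousWithinAt ⟨trivial, hx'⟩
    obtain ⟨r, hr, hsub⟩ := Metric.mem_nhdsWithin_iff.1 (hc (isOpen_ne.mem_nhds hk))
    refine ⟨Metric.ball (v, x) r ∩ S,
      Filter.inter_mem (mem_nhdsWithin_of_mem_nhds (Metric.ball_mem_nhds _ hr))
        self_mem_nhdsWithin, k, fun w Z hZ => ?_⟩
    by_contra! hlt
    obtain ⟨Z', hZ', hcard⟩ := Finset.exists_subset_card_eq (show k + 1 ≤ #Z by omega)
    have hne : Z'.Nonempty := Finset.card_pos.1 (by omega)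
    set α := Z'.min' hne
    set β := Z'.max' hne
    have hα := hZ α (hZ' (Z'.min'_mem hne))
    have hβ := hZ β (hZ' (Z'.max'_mem hne))
    obtain ⟨ξ, hξ, h⟩ := exists_iteratedDeriv_eq_zero (a := α) (b := β) k
      (fun y => ∑ j, w j * φ j y)
      (fun y hy => Finset.analyticAt_fun_sum _ fun j _ => analyticAt_const.fun_mul
        (hφ j y ⟨hα.1.1.trans hy.1, hy.2.trans hβ.1.2⟩))
      Z' hcard fun z hz => ⟨⟨Z'.min'_le z hz, Z'.le_max' z hz⟩, (hZ z (hZ' hz)).2.1⟩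
    have hξ' : ξ ∈ Icc a b := ⟨hα.1.1.trans hξ.1, hξ.2.trans hβ.1.2⟩
    rw [iteratedDeriv_combination φ hφ w k hξ'] at h
    refine hsub (a := (w, ξ)) ⟨?_, trivial, hξ'⟩ h
    have hdα : max (dist w v) (dist α x) < r := hα.2.2.1
    have hdβ : max (dist w v) (dist β x) < r := hβ.2.2.1
    obtain ⟨h1, h2⟩ := max_lt_iff.1 hdα
    have h3 := (max_lt_iff.1 hdβ).2
    refine max_lt h1 ?_
    simp only [Real.dist_eq, abs_lt] at h2 h3 ⊢
    constructor <;> linarith [hξ.1, hξ.2]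
  refine ⟨B, fun v hv Z hZ => hB (‖v‖⁻¹ • v) Z fun z hz => ⟨(hZ z hz).1, ?_, ?_, (hZ z hz).1⟩⟩
  · simp only [Pi.smul_apply, smul_eq_mul, mul_assoc, ← Finset.mul_sum, (hZ z hz).2, mul_zero]
  · rw [Metric.mem_sphere, dist_zero_right]
    exact norm_smul_inv_norm hv

end FA.BombieriPila

end
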